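import Mathlib.Analysis.Matrix.Spectrum
import Mathlib.Analysis.Real.Sqrt
import Mathlib.LinearAlgebra.Matrix.NonsingularInverse
import Mathlib.Topology.Instances.Matrix
import Mathlib.Topology.Connected.PathConnected
import Mathlib.Tactic

/-!
# The real orthogonal group of a symmetric matrix

Every element is a product of reflections, and a reflection is joined to the reflection in a vector
of an orthogonal basis; so there are finitely many components. For an indefinite form the group is
unbounded.
-/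

set_option autoImplicit false
set_option linter.style.haveILetI false

noncomputable section

open Matrix

namespace FA.OrthogonalUnits

variable {n : ℕ}

local notation "Mat" => Matrix (Fin n) (Fin n) ℝ
local notation "Vec" => Fin n → ℝ

/-- The orthogonal group of `A`. -/
def orthSet (A : Mat) : Set Mat := {g | gᵀ * A * g = A}

theorem one_mem_orthSet {A : Mat} : (1 : Mat) ∈ orthSet A := by simp [orthSet]

theorem mul_mem_orthSet {A g h : Mat} (hg : g ∈ orthSet A) (hh : h ∈ orthSet A) :
    g * h ∈ orthSet A := by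
  show (g * h)ᵀ * A * (g * h) = A
  rw [transpose_mul, show hᵀ * gᵀ * A * (g * h) = hᵀ * (gᵀ * A * g) * h by
    simp only [Matrix.mul_assoc], show gᵀ * A * g = A from hg]
  exact hh

theorem abs_det_orthSet {A g : Mat} (hA : A.det ≠ 0) (hg : g ∈ orthSet A) : |g.det| = 1 := by
  have h := congrArg Matrix.det (show gᵀ * A * g = A from hg)
  rw [det_mul, det_mul, det_transpose] at h
  have h2 : g.det ^ 2 = 1 := mul_right_cancel₀ hA (by linear_combination h)
  exact abs_eq zero_le_one |>.2 (sq_eq_one_iff.1 h2)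

theorem form_mulVec {A g : Mat} (hg : g ∈ orthSet A) (u v : Vec) :
    (g *ᵥ u) ⬝ᵥ (A *ᵥ (g *ᵥ v)) = u ⬝ᵥ (A *ᵥ v) := by
  conv_rhs => rw [← show gᵀ * A * g = A from hg]
  rw [← Matrix.mulVec_mulVec, ← Matrix.mulVec_mulVec, Matrix.dotProduct_mulVec u gᵀ,
    Matrix.vecMul_transpose]

theorem joinedIn_mul {A a b a' b' : Mat} (h : JoinedIn (orthSet A) a b)
    (h' : JoinedIn (orthSet A) a' b') : JoinedIn (orthSet A) (a * a') (b * b') := by
  have h1 : JoinedIn (orthSet A) (a * a') (b * a') :=
    ⟨h.somePath.map (continuous_mul_const a'), fun t =>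
      mul_mem_orthSet (h.somePath_mem t) h'.source_mem⟩
  exact h1.trans ⟨h'.somePath.map (continuous_const_mul b), fun t =>
    mul_mem_orthSet h.target_mem (h'.somePath_mem t)⟩

/-- The value of the diagonal form. -/
def dval (d w : Vec) : ℝ := ∑ i, d i * w i ^ 2

theorem dotProduct_diag (d w : Vec) : w ⬝ᵥ (diagonal d *ᵥ w) = dval d w :=
  Finset.sum_congr rfl fun i _ => by rw [Matrix.mulVec_diagonal]; ring

/-- The reflection in a vector. -/
def refl (d w : Vec) : Mat := 1 - (2 / dval d w) • vecMulVec w (diagonal d *ᵥ w)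

theorem refl_mulVec (d w x : Vec) :
    refl d w *ᵥ x = x - (2 / dval d w * ((diagonal d *ᵥ w) ⬝ᵥ x)) • w := by
  rw [refl, sub_mulVec, one_mulVec, smul_mulVec, vecMulVec_mulVec, op_smul_eq_smul, smul_smul]

theorem refl_mul_self {d w : Vec} (hw : dval d w ≠ 0) : refl d w * refl d w = 1 := by
  have h : vecMulVec w (diagonal d *ᵥ w) * vecMulVec w (diagonal d *ᵥ w) =
      dval d w • vecMulVec w (diagonal d *ᵥ w) := by
    rw [vecMulVec_mul_vecMulVec, dotProduct_comm, dotProduct_diag, vecMulVec_smul]
  simp only [refl, sub_mul, mul_sub, one_mul, mul_one, smul_mul_assoc, mul_smul_comm, h, smul_smul]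
  rw [show 2 / dval d w * dval d w = 2 from div_mul_cancel₀ _ hw]
  module

theorem refl_mem {d w : Vec} (hw : dval d w ≠ 0) : refl d w ∈ orthSet (diagonal d) := by
  set u := diagonal d *ᵥ w
  set c := 2 / dval d w
  have h1 : diagonal d * vecMulVec w u = vecMulVec u u := by rw [mul_vecMulVec]
  have h2 : (vecMulVec w u)ᵀ * diagonal d = vecMulVec u u := by
    rw [transpose_vecMulVec, vecMulVec_mul, ← mulVec_transpose, diagonal_transpose]
  have h3 : vecMulVec u u * vecMulVec w u = dval d w • vecMulVec u u := by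
    rw [vecMulVec_mul_vecMulVec, dotProduct_comm, dotProduct_diag, vecMulVec_smul]
  show (1 - c • vecMulVec w u)ᵀ * diagonal d * (1 - c • vecMulVec w u) = diagonal d
  simp only [transpose_sub, transpose_one, transpose_smul, sub_mul, mul_sub, one_mul, mul_one,
    smul_mul_assoc, mul_smul_comm, h1, h2, h3, smul_smul]
  rw [show c * dval d w = 2 from div_mul_cancel₀ _ hw]
  module

/-- Joined to a diagonal matrix of signs. -/
def SignJoined (d : Vec) (g : Mat) : Prop :=
  ∃ s : Fin n → Bool, JoinedIn (orthSet (diagonal d)) g (diagonal fun i => if s i then 1 else -1)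

theorem SignJoined.mul {d : Vec} {g h : Mat} (hg : SignJoined d g) (hh : SignJoined d h) :
    SignJoined d (g * h) := by
  obtain ⟨s, hs⟩ := hg
  obtain ⟨t, ht⟩ := hh
  refine ⟨fun i => s i == t i, ?_⟩
  have := joinedIn_mul hs ht
  rwa [diagonal_mul_diagonal,
    show (fun i => (if s i then (1 : ℝ) else -1) * (if t i then 1 else -1)) =
    fun i => if (s i == t i) then 1 else -1 by funext i; cases s i <;> cases t i <;> simp] at this

theorem refl_single {d : Vec} (i : Fin n) {a : ℝ} (ha : a ≠ 0) (hd : d i ≠ 0) :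
    refl d (Pi.single i a) = diagonal fun j => if decide (j ≠ i) then 1 else -1 := by
  have hq : dval d (Pi.single i a) = d i * a ^ 2 := by
    rw [dval, Finset.sum_eq_single i] <;> simp +contextual
  ext j k
  simp only [refl, hq, Matrix.sub_apply, Matrix.smul_apply, smul_eq_mul, vecMulVec_apply,
    Matrix.mulVec_diagonal, Matrix.one_apply, Matrix.diagonal_apply]
  rcases eq_or_ne j i with rfl | hj
  · rcases eq_or_ne k j with rfl | hk
    · simp
      field_simp
      ring
    · simp [hk, hk.symm]
  · simp [hj]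

/-- **A reflection is joined to a diagonal one.** -/
theorem signJoined_refl {d w : Vec} (hd : ∀ i, d i ≠ 0) (hw : dval d w ≠ 0) :
    SignJoined d (refl d w) := by
  obtain ⟨i, hi⟩ : ∃ i, 0 < dval d w * (d i * w i ^ 2) := by
    by_contra! h
    have h' := Finset.sum_nonpos fun i (_ : i ∈ Finset.univ) => h i
    rw [← Finset.mul_sum] at h'
    exact absurd h' (not_le.2 (mul_self_pos.2 hw))
  have hwi : w i ≠ 0 := fun h => by simp [h] at hi
  refine ⟨fun j => decide (j ≠ i), ?_⟩
  rw [← refl_single i hwi (hd i)]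
  set e : Vec := Pi.single i (w i)
  have hq : ∀ t ∈ unitInterval, dval d ((1 - t) • w + t • e) ≠ 0 := fun t ht => by
    have h : dval d ((1 - t) • w + t • e) =
        (1 - t) ^ 2 * dval d w + (1 - (1 - t) ^ 2) * (d i * w i ^ 2) := by
      have hsum : d i * w i ^ 2 = ∑ j, d j * e j ^ 2 := by
        rw [Finset.sum_eq_single i] <;> simp +contextual [e]
      rw [hsum, dval, dval, Finset.mul_sum, Finset.mul_sum, ← Finset.sum_add_distrib]
      refine Finset.sum_congr rfl fun j _ => ?_
      rcases eq_or_ne j i with rfl | hj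
      · simp [e]; ring
      · simp [e, hj]; ring
    rw [h]
    intro h0
    have h0' := congrArg (dval d w * ·) h0
    simp only [mul_zero] at h0'
    have hs1 : (1 - t) ^ 2 ≤ 1 := by nlinarith [ht.1, ht.2]
    rcases eq_or_lt_of_le hs1 with hs | hs
    · rw [hs] at h0'
      nlinarith [mul_self_pos.2 hw]
    · nlinarith [mul_self_pos.2 hw, mul_pos (sub_pos.2 hs) hi, sq_nonneg (1 - t)]
  refine JoinedIn.ofLine (f := fun t : ℝ => refl d ((1 - t) • w + t • e)) ?_ (by simp) (by simp) ?_
  · unfold refl
    refine continuousOn_const.sub ((continuousOn_const.div ?_ hq).smul ?_)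
    · exact Continuous.continuousOn (by unfold dval; fun_prop)
    · exact Continuous.continuousOn (Continuous.matrix_vecMulVec (by fun_prop) (by fun_prop))
  · rintro _ ⟨t, ht, rfl⟩
    exact refl_mem (hq t ht)

/-- **Finitely many components** for a diagonal form. -/
theorem signJoined_of_mem {d : Vec} (hd : ∀ i, d i ≠ 0) :
    ∀ k : ℕ, ∀ g ∈ orthSet (diagonal d),
      (∀ j : Fin n, (j : ℕ) + k < n → g *ᵥ Pi.single j 1 = Pi.single j 1) → SignJoined d g := by
  intro k
  induction k with
  | zero =>
    intro g _ hfix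
    obtain rfl : g = 1 := Matrix.ext_of_mulVec_single fun j => by
      rw [hfix j (by simp), one_mulVec]
    exact ⟨fun _ => true, by simpa using JoinedIn.refl one_mem_orthSet⟩
  | succ k ih =>
    intro g hg hfix
    by_cases hk : k < n
    swap
    · exact ih g hg fun j hj => by omega
    obtain ⟨i, hi⟩ : ∃ i : Fin n, (i : ℕ) + (k + 1) = n :=
      ⟨⟨n - (k + 1), by omega⟩, by simp only; omega⟩
    set e : Vec := Pi.single i 1
    set x := g *ᵥ e
    have hB : ∀ u v : Vec, u ⬝ᵥ (diagonal d *ᵥ v) = ∑ j, d j * (u j * v j) := fun u v =>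
      Finset.sum_congr rfl fun j _ => by rw [Matrix.mulVec_diagonal]; ring
    have hqe : dval d e = d i := by
      rw [dval, Finset.sum_eq_single i] <;> simp +contextual [e]
    have hqx : dval d x = d i := by rw [← dotProduct_diag, form_mulVec hg, dotProduct_diag, hqe]
    have hxj : ∀ j : Fin n, j < i → x j = 0 := fun j hj => by
      have h := form_mulVec hg (Pi.single j 1) e
      rw [hfix j (by have : (j : ℕ) < i := hj; omega), single_dotProduct, single_dotProduct,
        Matrix.mulVec_diagonal, Matrix.mulVec_diagonal, show e j = 0 from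
          Pi.single_eq_of_ne hj.ne _] at h
      simpa [hd j] using h
    -- it suffices to move `x` to `e` by reflections fixing the vectors before `i`
    suffices H : ∃ r ∈ orthSet (diagonal d), ∃ r', SignJoined d r' ∧ r' * r = 1 ∧ r *ᵥ x = e ∧
        ∀ j < i, r *ᵥ Pi.single j 1 = Pi.single j 1 by
      obtain ⟨r, hr, r', hrJ, hrr, hrx, hrj⟩ := H
      have h := hrJ.mul (ih (r * g) (mul_mem_orthSet hr hg) fun j hj => by
        rw [← Matrix.mulVec_mulVec]
        rcases eq_or_ne j i with rfl | hne
        · exact hrx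
        · have hji : (j : ℕ) < i := by
            have := Fin.val_ne_of_ne hne
            omega
          rw [hfix j (by omega), hrj j hji])
      rwa [← Matrix.mul_assoc, hrr, Matrix.one_mul] at h
    have hfixj : ∀ w : Vec, (∀ j < i, w j = 0) →
        ∀ j < i, refl d w *ᵥ Pi.single j 1 = Pi.single j 1 := fun w hw j hj => by
      rw [refl_mulVec, dotProduct_single, Matrix.mulVec_diagonal, hw j hj]
      simp
    have hej : ∀ j < i, e j = 0 := fun j hj => Pi.single_eq_of_ne hj.ne _
    have hBe : (diagonal d *ᵥ e) ⬝ᵥ e = d i := by rw [dotProduct_comm, dotProduct_diag, hqe]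
    by_cases h1 : dval d (x - e) = 0
    swap
    · refine ⟨refl d (x - e), refl_mem h1, _, signJoined_refl hd h1, refl_mul_self h1, ?_,
        hfixj _ fun j hj => by simp [hxj j hj, hej j hj]⟩
      have h : 2 * ((diagonal d *ᵥ (x - e)) ⬝ᵥ x) = dval d (x - e) := by
        have : dval d x - dval d e = 0 := by rw [hqx, hqe, sub_self]
        rw [dotProduct_comm, hB]
        simp only [dval, Pi.sub_apply, Finset.mul_sum, ← Finset.sum_sub_distrib] at this ⊢
        rw [← sub_eq_zero, ← Finset.sum_sub_distrib, ← this]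
        exact Finset.sum_congr rfl fun j _ => by ring
      rw [refl_mulVec, div_mul_eq_mul_div, h, div_self h1, one_smul, sub_sub_cancel]
    have h2 : dval d (x + e) = 4 * d i := by
      have : dval d (x + e) + dval d (x - e) = 2 * dval d x + 2 * dval d e := by
        simp only [dval, Finset.mul_sum, ← Finset.sum_add_distrib]
        exact Finset.sum_congr rfl fun j _ => by simp; ring
      rw [h1, hqx, hqe] at this
      linarith
    have h2' : dval d (x + e) ≠ 0 := by rw [h2]; simp [hd i]
    have he : dval d e ≠ 0 := by rw [hqe]; exact hd i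
    have hr1 : refl d (x + e) *ᵥ x = -e := by
      have h : 2 * ((diagonal d *ᵥ (x + e)) ⬝ᵥ x) = dval d (x + e) := by
        have : dval d x - dval d e = 0 := by rw [hqx, hqe, sub_self]
        rw [dotProduct_comm, hB]
        simp only [dval, Pi.add_apply, Finset.mul_sum, ← Finset.sum_sub_distrib] at this ⊢
        rw [← sub_eq_zero, ← Finset.sum_sub_distrib, ← this]
        exact Finset.sum_congr rfl fun j _ => by ring
      rw [refl_mulVec, div_mul_eq_mul_div, h, div_self h2', one_smul]
      abel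
    have hr2 : refl d e *ᵥ (-e) = e := by
      rw [mulVec_neg, refl_mulVec, hBe, hqe, div_mul_cancel₀ _ (hd i)]
      module
    refine ⟨refl d e * refl d (x + e), mul_mem_orthSet (refl_mem he) (refl_mem h2'),
      refl d (x + e) * refl d e, (signJoined_refl hd h2').mul (signJoined_refl hd he), ?_, ?_, ?_⟩
    · rw [Matrix.mul_assoc, ← Matrix.mul_assoc (refl d e), refl_mul_self he, Matrix.one_mul,
        refl_mul_self h2']
    · rw [← Matrix.mulVec_mulVec, hr1, hr2]
    · intro j hj
      rw [← Matrix.mulVec_mulVec, hfixj _ (fun k hk => by simp [hxj k hk, hej k hk]) j hj,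
        hfixj _ hej j hj]

/-- An orthogonal change of variables diagonalises. -/
theorem exists_diagonal {A : Mat} (hA : A.IsSymm) (hdet : A.det ≠ 0) :
    ∃ (S : Mat) (d : Vec), Sᵀ * S = 1 ∧ S * Sᵀ = 1 ∧ A = Sᵀ * diagonal d * S ∧ ∀ i, d i ≠ 0 := by
  have hH : A.IsHermitian := by
    rw [Matrix.IsHermitian, conjTranspose_eq_transpose_of_trivial]
    exact hA
  set U : Mat := (hH.eigenvectorUnitary : Mat)
  have hUU : Uᵀ * U = 1 := by
    rw [← conjTranspose_eq_transpose_of_trivial]
    exact Unitary.star_mul_self_of_mem hH.eigenvectorUnitary.2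
  refine ⟨Uᵀ, hH.eigenvalues, ?_, by rwa [transpose_transpose], ?_, fun i hi => hdet ?_⟩
  · rw [transpose_transpose]
    exact mul_eq_one_comm.1 hUU
  · conv_lhs => rw [hH.spectral_theorem]
    rw [Unitary.conjStarAlgAut_apply, transpose_transpose, star_eq_conjTranspose,
      conjTranspose_eq_transpose_of_trivial]
    rfl
  · exact hH.det_eq_prod_eigenvalues.trans (Finset.prod_eq_zero (Finset.mem_univ i) (by simp [hi]))

theorem conj_mem_orthSet {S g B : Mat} (hS : S * Sᵀ = 1) (hg : g ∈ orthSet B) :
    Sᵀ * g * S ∈ orthSet (Sᵀ * B * S) := by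
  show (Sᵀ * g * S)ᵀ * (Sᵀ * B * S) * (Sᵀ * g * S) = Sᵀ * B * S
  rw [transpose_mul, transpose_mul, transpose_transpose,
    show Sᵀ * (gᵀ * S) * (Sᵀ * B * S) * (Sᵀ * g * S) =
        Sᵀ * (gᵀ * (S * Sᵀ) * B * (S * Sᵀ) * g) * S by
      simp only [Matrix.mul_assoc], hS, Matrix.mul_one, Matrix.mul_one,
    show gᵀ * B * g = B from hg]

/-- **Finitely many components.** -/
theorem exists_finite_reps {A : Mat} (hA : A.IsSymm) (hdet : A.det ≠ 0) :
    ∃ Y : Finset Mat, ∀ g ∈ orthSet A, ∃ y ∈ Y, JoinedIn (orthSet A) g y := by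
  classical
  obtain ⟨S, d, hS, hS', rfl, hd⟩ := exists_diagonal hA hdet
  refine ⟨Finset.univ.image fun s : Fin n → Bool =>
    Sᵀ * diagonal (fun i => if s i then 1 else -1) * S, fun g hg => ?_⟩
  have hg' : S * g * Sᵀ ∈ orthSet (diagonal d) := by
    have h := conj_mem_orthSet (S := Sᵀ) (by rwa [transpose_transpose]) hg
    rw [transpose_transpose] at h
    rwa [show S * (Sᵀ * diagonal d * S) * Sᵀ = (S * Sᵀ) * diagonal d * (S * Sᵀ) by
      simp only [Matrix.mul_assoc], hS', Matrix.one_mul, Matrix.mul_one] at h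
  obtain ⟨s, hs⟩ := signJoined_of_mem hd n _ hg' fun j hj => by omega
  refine ⟨_, Finset.mem_image_of_mem _ (Finset.mem_univ s), ?_⟩
  have h : JoinedIn (orthSet (Sᵀ * diagonal d * S)) (Sᵀ * (S * g * Sᵀ) * S)
      (Sᵀ * diagonal (fun i => if s i then (1 : ℝ) else -1) * S) :=
    ⟨hs.somePath.map (f := fun M : Mat => Sᵀ * M * S) (by fun_prop), fun t =>
      conj_mem_orthSet hS' (hs.somePath_mem t)⟩
  rwa [show Sᵀ * (S * g * Sᵀ) * S = (Sᵀ * S) * g * (Sᵀ * S) by simp only [Matrix.mul_assoc], hS,
    Matrix.one_mul, Matrix.mul_one] at h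

/-- **An indefinite form has an unbounded group.** -/
theorem not_bounded_of_indefinite {A : Mat} (hA : A.IsSymm) (hdet : A.det ≠ 0) {v w : Vec}
    (hv : 0 < v ⬝ᵥ (A *ᵥ v)) (hw : w ⬝ᵥ (A *ᵥ w) < 0) (R : ℝ) :
    ∃ g ∈ orthSet A, ∃ i j, R < |g i j| := by
  classical
  obtain ⟨S, d, hS, hS', rfl, hd⟩ := exists_diagonal hA hdet
  have hval : ∀ x : Vec, x ⬝ᵥ ((Sᵀ * diagonal d * S) *ᵥ x) = dval d (S *ᵥ x) := fun x => by
    rw [← mulVec_mulVec, ← mulVec_mulVec, dotProduct_mulVec x Sᵀ, vecMul_transpose,
      dotProduct_diag]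
  rw [hval] at hv hw
  obtain ⟨i, hi⟩ : ∃ i, 0 < d i := by
    by_contra! h
    exact absurd hv (not_lt.2 (Finset.sum_nonpos fun i _ =>
      mul_nonpos_of_nonpos_of_nonneg (h i) (sq_nonneg _)))
  obtain ⟨j, hj⟩ : ∃ j, d j < 0 := by
    by_contra! h
    exact absurd hw (not_lt.2 (Finset.sum_nonneg fun i _ => mul_nonneg (h i) (sq_nonneg _)))
  by_contra! hb
  set c := max R 0
  set M : ℝ := ∑ a, ∑ b, |S i a| * c * |S i b|
  set ε : ℝ := 2 * d i / (M + 3)
  have hM : 0 ≤ M := Finset.sum_nonneg fun a _ => Finset.sum_nonneg fun b _ =>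
    mul_nonneg (mul_nonneg (abs_nonneg _) (le_max_right _ _)) (abs_nonneg _)
  have hε : 0 < ε := by positivity
  have hεd : ε ≤ d i := by
    rw [div_le_iff₀ (by linarith)]
    nlinarith
  have hij : i ≠ j := fun h => by rw [h] at hi; linarith
  set t := Real.sqrt ((d i - ε) / -d j)
  set x : Vec := Pi.single i 1 + Pi.single j t
  have ht : t ^ 2 = (d i - ε) / -d j :=
    Real.sq_sqrt (div_nonneg (by linarith) (by linarith))
  have hq : dval d x = ε := by
    rw [dval, Finset.sum_eq_add i j hij (fun k _ hk => by simp [x, hk.1, hk.2]) (by simp)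
      (by simp)]
    simp only [x, Pi.add_apply, Pi.single_eq_same, Pi.single_eq_of_ne hij,
      Pi.single_eq_of_ne hij.symm, add_zero, zero_add, one_pow, mul_one, ht]
    rw [div_neg, mul_neg, mul_div_cancel₀ _ (hd j)]
    ring
  have hr := refl_mem (d := d) (w := x) (by rw [hq]; exact hε.ne')
  have hentry : refl d x i i = -(M + 2) := by
    simp only [refl, hq, Matrix.sub_apply, Matrix.smul_apply, Matrix.one_apply_eq, smul_eq_mul,
      vecMulVec_apply, mulVec_diagonal, x, Pi.add_apply, Pi.single_eq_same,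
      Pi.single_eq_of_ne hij, add_zero, ε]
    field_simp
    ring
  set g := Sᵀ * refl d x * S
  have hg : g ∈ orthSet (Sᵀ * diagonal d * S) := conj_mem_orthSet hS' hr
  have he : refl d x i i = ∑ a, ∑ b, S i a * g a b * S i b := by
    rw [show refl d x = (S * Sᵀ) * refl d x * (S * Sᵀ) by rw [hS', Matrix.one_mul, Matrix.mul_one],
      show S * Sᵀ * refl d x * (S * Sᵀ) = S * g * Sᵀ by simp only [g, Matrix.mul_assoc],
      Matrix.mul_apply, Finset.sum_comm]
    exact Finset.sum_congr rfl fun b _ => by rw [Matrix.mul_apply, Finset.sum_mul]; rfl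
  have h : |refl d x i i| ≤ M := by
    rw [he]
    refine (Finset.abs_sum_le_sum_abs _ _).trans (Finset.sum_le_sum fun a _ => ?_)
    refine (Finset.abs_sum_le_sum_abs _ _).trans (Finset.sum_le_sum fun b _ => ?_)
    rw [abs_mul, abs_mul]
    gcongr
    exact (hb g hg a b).trans (le_max_left _ _)
  rw [hentry, abs_neg, abs_of_nonneg (by linarith)] at h
  linarith

end FA.OrthogonalUnits
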