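import Fermat.Agent.OrthogonalUnits.Mahler
import Fermat.Agent.OrthogonalUnits.Components
import Fermat.Agent.UnitsOrders.Matrices
import Mathlib.GroupTheory.Finiteness
import Mathlib.Topology.LocallyConstant.Basic
import Mathlib.Topology.UnitInterval
import Mathlib.Topology.Instances.Rat

/-!
# The units of an anisotropic form

For an anisotropic integral form no lattice `g ℤ ^ n` of a real automorph `g` has a short vector, so
by Mahler's theorem `g` is bounded after a unimodular change, which differs from an integral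
automorph by one of finitely many. So the integral automorphs are cocompact, finitely generated,
and finite in number only for a definite form.
-/

set_option autoImplicit false
set_option linter.style.haveILetI false

noncomputable section

open Matrix Filter Topology FA.Reduction FA.UnitsOrders

namespace FA.OrthogonalUnits

variable {n : ℕ}

local notation "Mat" => Matrix (Fin n) (Fin n) ℝ

/-- The integral automorphs of `A`. -/
def automorphs (A : Matrix (Fin n) (Fin n) ℤ) : Subgroup (GL (Fin n) ℤ) where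
  carrier := {U | (U : Matrix (Fin n) (Fin n) ℤ)ᵀ * A * U = A}
  one_mem' := by simp
  mul_mem' := fun {U V} hU hV => by
    show ((U * V : GL (Fin n) ℤ) : Matrix (Fin n) (Fin n) ℤ)ᵀ * A * (U * V : GL (Fin n) ℤ) = A
    rw [Units.val_mul, transpose_mul,
      show (V : Matrix (Fin n) (Fin n) ℤ)ᵀ * (U : Matrix (Fin n) (Fin n) ℤ)ᵀ * A * (↑U * ↑V) =
        (V : Matrix (Fin n) (Fin n) ℤ)ᵀ * ((U : Matrix (Fin n) (Fin n) ℤ)ᵀ * A * U) * V by
        simp only [Matrix.mul_assoc], show (U : Matrix (Fin n) (Fin n) ℤ)ᵀ * A * U = A from hU]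
    exact hV
  inv_mem' := fun {U} hU => by
    show ((U⁻¹ : GL (Fin n) ℤ) : Matrix (Fin n) (Fin n) ℤ)ᵀ * A * (U⁻¹ : GL (Fin n) ℤ) = A
    conv_lhs => rw [← show (U : Matrix (Fin n) (Fin n) ℤ)ᵀ * A * U = A from hU]
    rw [show ∀ X Y : Matrix (Fin n) (Fin n) ℤ, Xᵀ * (Yᵀ * A * Y) * X = (Y * X)ᵀ * A * (Y * X) by
      intro X Y; simp only [transpose_mul, Matrix.mul_assoc], ← Units.val_mul, mul_inv_cancel]
    simp

/-- Nonzero at every nonzero integral vector. -/
def IsAnisotropicInt (A : Matrix (Fin n) (Fin n) ℤ) : Prop :=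
  ∀ v : Fin n → ℤ, v ≠ 0 → v ⬝ᵥ (A *ᵥ v) ≠ 0

theorem det_ne_zero_of_anisotropic {A : Matrix (Fin n) (Fin n) ℤ} (hA : IsAnisotropicInt A) :
    (toReal A).det ≠ 0 := by
  rw [det_toReal, Int.cast_ne_zero]
  intro h
  obtain ⟨v, hv, hv0⟩ := Matrix.exists_mulVec_eq_zero_iff.2 h
  exact hA v hv (by rw [hv0, dotProduct_zero])

/-- The real matrix of a unit. -/
def rep (U : GL (Fin n) ℤ) : Mat := toReal (U : Matrix (Fin n) (Fin n) ℤ)

theorem rep_mul (U V : GL (Fin n) ℤ) : rep (U * V) = rep U * rep V := toReal_mul _ _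

theorem rep_one : rep (1 : GL (Fin n) ℤ) = 1 := toReal_one

theorem rep_inv (U : GL (Fin n) ℤ) : rep U⁻¹ = (rep U)⁻¹ :=
  (Matrix.inv_eq_right_inv (by rw [← rep_mul, mul_inv_cancel, rep_one])).symm

theorem rep_mem {A : Matrix (Fin n) (Fin n) ℤ} {U : GL (Fin n) ℤ} (hU : U ∈ automorphs A) :
    rep U ∈ orthSet (toReal A) := by
  have h := congrArg toReal (show (U : Matrix (Fin n) (Fin n) ℤ)ᵀ * A * U = A from hU)
  rwa [toReal_mul, toReal_mul, show toReal (U : Matrix (Fin n) (Fin n) ℤ)ᵀ = (rep U)ᵀ from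
    (transpose_map ..).symm] at h

/-- There are finitely many units of bounded size. -/
theorem finite_small_rep (R : ℝ) : {U : GL (Fin n) ℤ | Small R (rep U)}.Finite := by
  refine Set.Finite.of_finite_image (f := fun U : GL (Fin n) ℤ =>
      (U : Matrix (Fin n) (Fin n) ℤ)) ((Set.Finite.pi (t := fun _ => Set.univ.pi fun _ =>
        Set.Icc (-(⌈R⌉₊ : ℤ)) ⌈R⌉₊) fun _ => Set.Finite.pi fun _ => Set.finite_Icc _ _).subset ?_)
    fun U _ V _ h => Units.ext h
  rintro _ ⟨U, hU, rfl⟩ i - j -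
  have h : |((U : Matrix (Fin n) (Fin n) ℤ) i j : ℝ)| ≤ ⌈R⌉₊ :=
    (hU i j).trans (Nat.le_ceil R)
  exact abs_le.1 (by exact_mod_cast h)

theorem quad_transpose_mul_self (g : Mat) (x : Fin n → ℝ) :
    quad (gᵀ * g) x = ∑ i, (g *ᵥ x) i ^ 2 := by
  rw [show gᵀ * g = gᵀ * 1 * g by rw [Matrix.mul_one], quad_congr, quad, Matrix.one_mulVec,
    dotProduct]
  exact Finset.sum_congr rfl fun i _ => (sq _).symm

/-- **Mahler's theorem** for one matrix. -/
theorem exists_small_mul (n : ℕ) {ε : ℝ} (hε : 0 < ε) :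
    ∃ R : ℝ, 1 ≤ R ∧ ∀ g : Matrix (Fin n) (Fin n) ℝ, |g.det| = 1 →
      (∀ v : Fin n → ℤ, v ≠ 0 → ε ≤ ∑ i, (g *ᵥ fun k => (v k : ℝ)) i ^ 2) →
        ∃ U : GL (Fin n) ℤ, Small R (g * rep U) := by
  obtain ⟨R, hR⟩ := exists_bounded_diag n ε 1 hε
  refine ⟨max R 0 + 1, by linarith [le_max_right R 0], fun g hg hmin => ?_⟩
  have hu : IsUnit g.det := isUnit_iff_ne_zero.2 fun h => by simp [h] at hg
  have hP : (gᵀ * g).PosDef := by
    rw [← conjTranspose_eq_transpose_of_trivial]
    exact Matrix.PosDef.conjTranspose_mul_self g (mulVec_injective_of_isUnit_det hu)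
  obtain ⟨U, hU, hd⟩ := hR _ hP (by rw [det_mul, det_transpose, ← sq, ← sq_abs, hg, one_pow])
    fun v hv => (quad_transpose_mul_self g _).symm ▸ hmin v hv
  obtain ⟨U', hU'⟩ := (Matrix.isUnit_iff_isUnit_det U).2 hU
  refine ⟨U', fun i j => ?_⟩
  show |(g * toReal (U' : Matrix (Fin n) (Fin n) ℤ)) i j| ≤ _
  rw [hU']
  have h := hd j
  rw [show (toReal U)ᵀ * (gᵀ * g) * toReal U = (g * toReal U)ᵀ * (g * toReal U) by
    simp only [transpose_mul, Matrix.mul_assoc], Matrix.mul_apply] at h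
  have h1 : (g * toReal U) i j ^ 2 ≤ max R 0 := le_trans (le_trans (le_of_eq (sq _))
    (Finset.single_le_sum (f := fun k => (g * toReal U)ᵀ j k * (g * toReal U) k j)
      (fun k _ => mul_self_nonneg _) (Finset.mem_univ i))) (h.trans (le_max_left _ _))
  rw [abs_le]
  constructor <;> nlinarith [le_max_right R 0]

/-- **Siegel's theorem**: up to an integral automorph a real one is bounded. -/
theorem exists_automorph_small {A : Matrix (Fin n) (Fin n) ℤ} (hA : IsAnisotropicInt A) :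
    ∃ R : ℝ, 1 ≤ R ∧ ∀ g ∈ orthSet (toReal A), ∃ U ∈ automorphs A, Small R (g * rep U) := by
  classical
  have hdet := det_ne_zero_of_anisotropic hA
  set c : ℝ := 1 + ∑ i, ∑ j, |toReal A i j|
  have hc : 0 < c := by positivity
  obtain ⟨R, hR, hm⟩ := exists_small_mul n (inv_pos.2 hc)
  set N : ℤ := ⌈(n : ℝ) * ((n : ℝ) * (R * c) * R)⌉
  let P : Set (GL (Fin n) ℤ) := {U | ∀ i j, |((U : Matrix (Fin n) (Fin n) ℤ)ᵀ * A * U) i j| ≤ N}
  let code : GL (Fin n) ℤ → Matrix (Fin n) (Fin n) ℤ :=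
    fun U => (U : Matrix (Fin n) (Fin n) ℤ)ᵀ * A * U
  have hfin : (code '' P).Finite := (Set.Finite.pi (t := fun _ => Set.univ.pi fun _ =>
    Set.Icc (-N) N) fun _ => Set.Finite.pi fun _ => Set.finite_Icc _ _).subset (by
      rintro _ ⟨U, hU, rfl⟩ i - j -
      exact abs_le.1 (hU i j))
  choose V hV using fun q : code '' P => q.2
  haveI := hfin.fintype
  set R₂ : ℝ := ∑ q : code '' P, ∑ i, ∑ j, |rep (V q)⁻¹ i j|
  refine ⟨max 1 (n * (R * R₂)), le_max_left _ _, fun g hg => ?_⟩
  have hval : ∀ x : Fin n → ℝ, |x ⬝ᵥ (toReal A *ᵥ x)| ≤ c * ∑ i, x i ^ 2 := fun x => by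
    have h : ∀ i, x i ^ 2 ≤ ∑ k, x k ^ 2 := fun i =>
      Finset.single_le_sum (f := fun k => x k ^ 2) (fun k _ => sq_nonneg _) (Finset.mem_univ i)
    calc |x ⬝ᵥ (toReal A *ᵥ x)| ≤ ∑ i, ∑ j, |toReal A i j| * ∑ k, x k ^ 2 := by
          rw [show x ⬝ᵥ (toReal A *ᵥ x) = ∑ i, ∑ j, x i * (toReal A i j * x j) from
            Finset.sum_congr rfl fun i _ => by simp only [mulVec, dotProduct, Finset.mul_sum]]
          refine (Finset.abs_sum_le_sum_abs _ _).trans (Finset.sum_le_sum fun i _ => ?_)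
          refine (Finset.abs_sum_le_sum_abs _ _).trans (Finset.sum_le_sum fun j _ => ?_)
          rw [abs_mul, abs_mul, mul_comm |toReal A i j| |x j|, ← mul_assoc, mul_comm (_ * _)]
          refine mul_le_mul_of_nonneg_left ?_ (abs_nonneg _)
          nlinarith [h i, h j, sq_abs (x i), sq_abs (x j), sq_nonneg (|x i| - |x j|)]
      _ ≤ c * ∑ i, x i ^ 2 := by
          simp only [← Finset.sum_mul]
          refine mul_le_mul_of_nonneg_right ?_ (Finset.sum_nonneg fun i _ => sq_nonneg _)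
          linarith
  obtain ⟨U, hU⟩ := hm g (abs_det_orthSet hdet hg) fun v hv => by
    have h1 : (1 : ℝ) ≤ |((v ⬝ᵥ (A *ᵥ v) : ℤ) : ℝ)| := by
      exact_mod_cast Int.one_le_abs (hA v hv)
    have e : ((v ⬝ᵥ (A *ᵥ v) : ℤ) : ℝ) = (fun k => (v k : ℝ)) ⬝ᵥ
        (toReal A *ᵥ fun k => (v k : ℝ)) := by
      simp [dotProduct, mulVec, toReal]
    rw [e, ← form_mulVec hg] at h1
    rw [inv_le_iff_one_le_mul₀ hc, mul_comm]
    exact h1.trans (hval _)
  have hUP : U ∈ P := fun i j => by
    have hreal : toReal (code U) = (g * rep U)ᵀ * toReal A * (g * rep U) := by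
      rw [toReal_mul, toReal_mul, transpose_mul,
        show (rep U)ᵀ * gᵀ * toReal A * (g * rep U) = (rep U)ᵀ * (gᵀ * toReal A * g) * rep U by
          simp only [Matrix.mul_assoc], show gᵀ * toReal A * g = toReal A from hg]
      rfl
    have hAs : Small c (toReal A) := fun a b => (le_add_of_nonneg_left zero_le_one).trans'
      ((Finset.single_le_sum (f := fun b => |toReal A a b|) (fun _ _ => abs_nonneg _)
        (Finset.mem_univ b)).trans (Finset.single_le_sum (f := fun a => ∑ b, |toReal A a b|)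
          (fun _ _ => Finset.sum_nonneg fun _ _ => abs_nonneg _) (Finset.mem_univ a)))
    have hT : Small R (g * rep U)ᵀ := fun a b => hU b a
    have h := (hT.mul hAs).mul hU i j
    rw [← hreal] at h
    have h' : |((code U i j : ℤ) : ℝ)| ≤ (N : ℝ) := h.trans (Int.le_ceil _)
    exact_mod_cast h'
  set q : code '' P := ⟨code U, U, hUP, rfl⟩
  refine ⟨U * (V q)⁻¹, ?_, ?_⟩
  · show ((U * (V q)⁻¹ : GL (Fin n) ℤ) : Matrix (Fin n) (Fin n) ℤ)ᵀ * A *
      (U * (V q)⁻¹ : GL (Fin n) ℤ) = A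
    rw [Units.val_mul, transpose_mul, show ∀ W X : Matrix (Fin n) (Fin n) ℤ,
      Wᵀ * Xᵀ * A * (X * W) = Wᵀ * (Xᵀ * A * X) * W by intro W X; simp only [Matrix.mul_assoc],
      show (U : Matrix (Fin n) (Fin n) ℤ)ᵀ * A * U = code (V q) from (hV q).2.symm,
      show ∀ W X : Matrix (Fin n) (Fin n) ℤ, Wᵀ * (Xᵀ * A * X) * W = (X * W)ᵀ * A * (X * W) by
        intro W X; simp only [transpose_mul, Matrix.mul_assoc], ← Units.val_mul, mul_inv_cancel]
    simp
  · rw [rep_mul, ← Matrix.mul_assoc]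
    refine (hU.mul (R' := R₂) fun i j => ?_).mono (le_max_right _ _)
    exact (Finset.single_le_sum (f := fun j => |rep (V q)⁻¹ i j|) (fun _ _ => abs_nonneg _)
      (Finset.mem_univ j)).trans ((Finset.single_le_sum
        (f := fun i => ∑ j, |rep (V q)⁻¹ i j|) (fun _ _ => by positivity)
        (Finset.mem_univ i)).trans (Finset.single_le_sum
          (f := fun q => ∑ i, ∑ j, |rep (V q)⁻¹ i j|) (fun _ _ => by positivity)
          (Finset.mem_univ q)))

/-- **The integral automorphs are finitely generated.** -/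
theorem fg_automorphs {A : Matrix (Fin n) (Fin n) ℤ} (hAs : A.IsSymm) (hA : IsAnisotropicInt A) :
    Group.FG (automorphs A) := by
  classical
  have hdet := det_ne_zero_of_anisotropic hA
  obtain ⟨R, hR, hbd⟩ := exists_automorph_small hA
  set R' : ℝ := n * ((n.factorial * R ^ n) * (n * (2 * R)))
  set S : Set (automorphs A) := {u | Small (max R R') (rep (u : GL (Fin n) ℤ))}
  have hS : S.Finite := Set.Finite.of_finite_image ((finite_small_rep (max R R')).subset (by
    rintro _ ⟨u, hu, rfl⟩; exact hu)) Subtype.val_injective.injOn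
  set H : Subgroup (automorphs A) := Subgroup.closure S
  have hd : ∀ {g : Mat}, g ∈ orthSet (toReal A) → |g.det| = 1 := fun hg => abs_det_orthSet hdet hg
  have hunit : ∀ {g : Mat}, g ∈ orthSet (toReal A) → IsUnit g.det := fun hg =>
    isUnit_iff_ne_zero.2 fun h => by simpa [h] using hd hg
  -- neighbouring elements have translating units differing by a small one
  have hstep : ∀ g ∈ orthSet (toReal A), ∀ g' ∈ orthSet (toReal A), ∀ σ σ' : automorphs A,
      Small R (g * rep (σ : GL (Fin n) ℤ)) → Small R (g' * rep (σ' : GL (Fin n) ℤ)) →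
      Small 2 (g * g'⁻¹) → σ⁻¹ * σ' ∈ H := by
    intro g hg g' hg' σ σ' h h' h2
    refine Subgroup.subset_closure (Small.mono ?_ (le_max_right R R'))
    have e : rep ((σ⁻¹ * σ' : automorphs A) : GL (Fin n) ℤ) = (g * rep (σ : GL (Fin n) ℤ))⁻¹ *
        ((g * g'⁻¹) * (g' * rep (σ' : GL (Fin n) ℤ))) := by
      rw [Subgroup.coe_mul, Subgroup.coe_inv, rep_mul, rep_inv, Matrix.mul_inv_rev,
        Matrix.mul_assoc g, ← Matrix.mul_assoc g'⁻¹, Matrix.nonsing_inv_mul _ (hunit hg'),
        Matrix.one_mul, Matrix.mul_assoc _ g⁻¹, ← Matrix.mul_assoc g⁻¹,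
        Matrix.nonsing_inv_mul _ (hunit hg), Matrix.one_mul]
    rw [e]
    exact (h.inv hR (hd (mul_mem_orthSet hg (rep_mem σ.2)))).mul (h2.mul h')
  -- units joined to one lie in `H`
  have hconn : ∀ u : automorphs A,
      JoinedIn (orthSet (toReal A)) 1 (rep (u : GL (Fin n) ℤ)) → u ∈ H := by
    intro u hu
    have hmem := hu.somePath_mem
    set f : unitInterval → Mat := fun t => hu.somePath t
    have hf : Continuous f := hu.somePath.continuous
    have hb : ∀ t, ∃ σ : automorphs A, Small R (f t * rep (σ : GL (Fin n) ℤ)) := fun t =>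
      let ⟨σ, hσ, h⟩ := hbd _ (hmem t)
      ⟨⟨σ, hσ⟩, h⟩
    let P : unitInterval → Prop := fun t => ∃ σ ∈ H, Small R (f t * rep (σ : GL (Fin n) ℤ))
    have hloc : IsLocallyConstant P := IsLocallyConstant.iff_eventually_eq P |>.2 fun t₀ => by
      have hc : Continuous fun t => f t₀ * ((f t).det • (f t).adjugate) :=
        continuous_const.matrix_mul (hf.matrix_det.smul hf.matrix_adjugate)
      have hinv : ∀ t, (f t)⁻¹ = (f t).det • (f t).adjugate := fun t => by
        rw [Matrix.inv_def, Ring.inverse_eq_inv']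
        congr 1
        rcases (abs_eq zero_le_one).1 (hd (hmem t)) with h | h <;> simp [f, h]
      have hev : ∀ᶠ t in 𝓝 t₀, Small 2 (f t₀ * (f t)⁻¹) := by
        simp only [UnitsOrders.Small, hinv, eventually_all]
        intro i j
        refine (((continuous_apply j).comp ((continuous_apply i).comp hc)).abs.tendsto
          t₀).eventually (ge_mem_nhds ?_)
        show |(f t₀ * ((f t₀).det • (f t₀).adjugate)) i j| < 2
        rw [← hinv, Matrix.mul_nonsing_inv _ (hunit (hmem t₀)), Matrix.one_apply]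
        split_ifs <;> norm_num
      refine hev.mono fun t ht => propext ⟨?_, ?_⟩
      · rintro ⟨σ, hσ, h⟩
        obtain ⟨σ', h'⟩ := hb t₀
        refine ⟨σ', ?_, h'⟩
        have := H.mul_mem hσ (H.inv_mem (hstep _ (hmem t₀) _ (hmem t) σ' σ h' h ht))
        simpa using this
      · rintro ⟨σ, hσ, h⟩
        obtain ⟨σ', h'⟩ := hb t
        refine ⟨σ', ?_, h'⟩
        have := H.mul_mem hσ (hstep _ (hmem t₀) _ (hmem t) σ σ' h h' ht)
        simpa using this
    have h0 : P 0 := ⟨1, H.one_mem, by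
      simp only [f, Path.source, Subgroup.coe_one, rep_one, mul_one]
      intro i j
      rw [Matrix.one_apply]
      split_ifs <;> simp <;> linarith⟩
    obtain ⟨σ, hσ, h⟩ : P 1 := (hloc.apply_eq_of_preconnectedSpace 0 1) ▸ h0
    simp only [f, Path.target, ← rep_mul] at h
    have huσ : u * σ ∈ H := Subgroup.subset_closure (Small.mono h (le_max_left R R'))
    simpa using H.mul_mem huσ (H.inv_mem hσ)
  -- one unit in each component
  obtain ⟨Y, hY⟩ := exists_finite_reps (A := toReal A)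
    (by rw [Matrix.IsSymm, toReal, ← transpose_map, hAs.eq]) hdet
  choose y hyY hy using fun u : automorphs A => hY _ (rep_mem u.2)
  let P : Set Mat := Set.range y
  choose r hr using fun q : P => q.2
  haveI := ((Y.finite_toSet).subset (Set.range_subset_iff.2 hyY) : P.Finite).fintype
  refine Group.fg_iff.2 ⟨S ∪ Set.range r, eq_top_iff.2 fun u _ => ?_,
    hS.union (Set.finite_range _)⟩
  set v := r ⟨y u, u, rfl⟩
  have hv : y v = y u := hr ⟨y u, u, rfl⟩
  have hj : JoinedIn (orthSet (toReal A)) (rep (v : GL (Fin n) ℤ)) (rep (u : GL (Fin n) ℤ)) :=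
    (hy v).trans (hv ▸ (hy u).symm)
  have h1 := joinedIn_mul (JoinedIn.refl (rep_mem (v⁻¹).2)) hj
  rw [← rep_mul, ← rep_mul, ← Subgroup.coe_mul, ← Subgroup.coe_mul, inv_mul_cancel,
    Subgroup.coe_one, rep_one] at h1
  have h2 : v⁻¹ * u ∈ Subgroup.closure (S ∪ Set.range r) :=
    Subgroup.closure_mono Set.subset_union_left (hconn _ h1)
  have h3 : v ∈ Subgroup.closure (S ∪ Set.range r) := Subgroup.subset_closure (Or.inr ⟨_, rfl⟩)
  simpa using Subgroup.mul_mem _ h3 h2

/-- Nonnegative on integral vectors, so nonnegative. -/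
theorem quad_nonneg_of_int {A : Matrix (Fin n) (Fin n) ℤ}
    (h : ∀ v : Fin n → ℤ, 0 ≤ v ⬝ᵥ (A *ᵥ v)) (x : Fin n → ℝ) : 0 ≤ quad (toReal A) x := by
  have hd : DenseRange fun y : Fin n → ℚ => fun i => ((y i : ℚ) : ℝ) :=
    DenseRange.piMap fun _ => Rat.denseRange_cast
  refine hd.induction_on x (isClosed_le continuous_const (by unfold quad; fun_prop)) fun y => ?_
  obtain ⟨m, hm, hz⟩ := exists_nsmul_int y
  choose z hz using hz
  have e : (fun i => (z i : ℝ)) = (m : ℝ) • fun i => (y i : ℝ) := funext fun i => by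
    rw [Pi.smul_apply, smul_eq_mul]
    exact_mod_cast congrArg (fun q : ℚ => (q : ℝ)) (hz i).symm
  have h1 : (0 : ℝ) ≤ quad (toReal A) fun i => (z i : ℝ) := by
    have : quad (toReal A) (fun i => (z i : ℝ)) = ((z ⬝ᵥ (A *ᵥ z) : ℤ) : ℝ) := by
      simp [quad, dotProduct, mulVec, toReal]
    rw [this]
    exact_mod_cast h z
  rw [e, quad_smul] at h1
  exact nonneg_of_mul_nonneg_right h1 (by positivity)

theorem finite_automorphs_of_nonneg {A : Matrix (Fin n) (Fin n) ℤ} (hAs : A.IsSymm)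
    (hA : IsAnisotropicInt A) (h : ∀ v : Fin n → ℤ, 0 ≤ v ⬝ᵥ (A *ᵥ v)) :
    (automorphs A : Set (GL (Fin n) ℤ)).Finite := by
  classical
  obtain ⟨S, d, hS, hS', hAd, hd⟩ := exists_diagonal (A := toReal A)
    (by rw [Matrix.IsSymm, toReal, ← transpose_map, hAs.eq]) (det_ne_zero_of_anisotropic hA)
  have hq : ∀ x, quad (toReal A) x = dval d (S *ᵥ x) := fun x => by
    rw [hAd, quad_congr, quad, dotProduct_diag]
  have hdpos : ∀ i, 0 < d i := fun i => by
    refine lt_of_le_of_ne ?_ (hd i).symm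
    have := quad_nonneg_of_int h (Sᵀ *ᵥ Pi.single i 1)
    rw [hq, mulVec_mulVec, hS', one_mulVec, dval,
      Finset.sum_eq_single i (fun j _ hj => by simp [hj]) (by simp)] at this
    simpa using this
  have hP : (toReal A).PosDef := posDef_iff_quad.2
    ⟨by rw [Matrix.IsSymm, toReal, ← transpose_map, hAs.eq], fun x hx => by
      have hy : S *ᵥ x ≠ 0 := fun h0 => hx (by
        rw [← Matrix.one_mulVec x, ← hS, ← mulVec_mulVec, h0, mulVec_zero])
      obtain ⟨i, hi⟩ := Function.ne_iff.1 hy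
      rw [hq]
      exact Finset.sum_pos' (fun j _ => mul_nonneg (hdpos j).le (sq_nonneg _))
        ⟨i, Finset.mem_univ i, mul_pos (hdpos i) (pow_two_pos_of_ne_zero hi)⟩⟩
  refine (finite_small_rep (1 + ∑ i, ∑ j, |toReal A j j * (toReal A)⁻¹ i i|)).subset ?_
  intro U hU i j
  have h1 := sq_le_quad_mul hP i fun k => rep U k j
  rw [← diag_congr, show (rep U)ᵀ * toReal A * rep U = toReal A from rep_mem hU] at h1
  have h2 : toReal A j j * (toReal A)⁻¹ i i ≤ ∑ i, ∑ j, |toReal A j j * (toReal A)⁻¹ i i| :=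
    (le_abs_self _).trans ((Finset.single_le_sum
      (f := fun j => |toReal A j j * (toReal A)⁻¹ i i|) (fun _ _ => abs_nonneg _)
      (Finset.mem_univ j)).trans (Finset.single_le_sum
        (f := fun i => ∑ j, |toReal A j j * (toReal A)⁻¹ i i|)
        (fun _ _ => Finset.sum_nonneg fun _ _ => abs_nonneg _) (Finset.mem_univ i)))
  rw [abs_le]
  constructor <;> nlinarith

/-- **Finitely many automorphs iff definite.** -/
theorem infinite_automorphs_iff {A : Matrix (Fin n) (Fin n) ℤ} (hAs : A.IsSymm)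
    (hA : IsAnisotropicInt A) : (automorphs A : Set (GL (Fin n) ℤ)).Infinite ↔
      (∃ v : Fin n → ℤ, 0 < v ⬝ᵥ (A *ᵥ v)) ∧ ∃ v : Fin n → ℤ, v ⬝ᵥ (A *ᵥ v) < 0 := by
  classical
  constructor
  · intro hinf
    constructor <;> by_contra! h
    · refine hinf ?_
      have h' := finite_automorphs_of_nonneg (A := -A) hAs.neg
        (fun v hv => by rw [neg_mulVec, dotProduct_neg, neg_ne_zero]; exact hA v hv)
        fun v => by rw [neg_mulVec, dotProduct_neg, neg_nonneg]; exact h v
      refine h'.subset fun U hU => ?_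
      show (U : Matrix (Fin n) (Fin n) ℤ)ᵀ * (-A) * U = -A
      rw [Matrix.mul_neg, Matrix.neg_mul, show (U : Matrix (Fin n) (Fin n) ℤ)ᵀ * A * U = A from hU]
    · exact hinf (finite_automorphs_of_nonneg hAs hA h)
  · rintro ⟨⟨v, hv⟩, w, hw⟩ hfin
    obtain ⟨R, -, hbd⟩ := exists_automorph_small hA
    set R₂ : ℝ := ∑ U ∈ hfin.toFinset, ∑ i, ∑ j, |rep U⁻¹ i j|
    have e : ∀ z : Fin n → ℤ, (fun k => (z k : ℝ)) ⬝ᵥ (toReal A *ᵥ fun k => (z k : ℝ)) =
        ((z ⬝ᵥ (A *ᵥ z) : ℤ) : ℝ) := fun z => by simp [dotProduct, mulVec, toReal]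
    obtain ⟨g, hg, i, j, h⟩ := not_bounded_of_indefinite (A := toReal A)
      (by rw [Matrix.IsSymm, toReal, ← transpose_map, hAs.eq]) (det_ne_zero_of_anisotropic hA)
      (v := fun k => (v k : ℝ)) (w := fun k => (w k : ℝ)) (by rw [e]; exact_mod_cast hv)
      (by rw [e]; exact_mod_cast hw) (n * (R * R₂))
    obtain ⟨U, hU, hsmall⟩ := hbd g hg
    refine h.not_ge ?_
    have hs : Small R₂ (rep U⁻¹) := fun a b => (Finset.single_le_sum
      (f := fun b => |rep U⁻¹ a b|) (fun _ _ => abs_nonneg _) (Finset.mem_univ b)).trans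
      ((Finset.single_le_sum (f := fun a => ∑ b, |rep U⁻¹ a b|) (fun _ _ => by positivity)
        (Finset.mem_univ a)).trans (Finset.single_le_sum
          (f := fun U => ∑ i, ∑ j, |rep U⁻¹ i j|) (fun _ _ => by positivity)
          (hfin.mem_toFinset.2 hU)))
    have := hsmall.mul hs i j
    rwa [Matrix.mul_assoc, ← rep_mul, mul_inv_cancel, rep_one, Matrix.mul_one] at this

end FA.OrthogonalUnits
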