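import Fermat.Agent.Reduction.Hermite
import Fermat.Agent.UnitsOrders.Basic
import Mathlib.NumberTheory.DiophantineApproximation.Basic

/-!
# Mahler's compactness theorem

A positive form of bounded determinant with no small value at a nonzero integer vector has, in some
basis of `ℤ ^ n`, bounded diagonal: a short primitive vector is the first basis vector, and
Dirichlet's approximation bounds the form on the quotient from below.
-/

set_option autoImplicit false

noncomputable section

namespace FA.OrthogonalUnits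

open Matrix Finset FA.Reduction

variable {n : ℕ}

/-- The real matrix of an integral one. -/
def toReal (U : Matrix (Fin n) (Fin n) ℤ) : Matrix (Fin n) (Fin n) ℝ := U.map fun z : ℤ => (z : ℝ)

theorem toReal_eq (U : Matrix (Fin n) (Fin n) ℤ) :
    toReal U = (Int.castRingHom ℝ).mapMatrix U := rfl

theorem toReal_mul (U V : Matrix (Fin n) (Fin n) ℤ) : toReal (U * V) = toReal U * toReal V :=
  map_mul (Int.castRingHom ℝ).mapMatrix U V

theorem toReal_one : toReal (1 : Matrix (Fin n) (Fin n) ℤ) = 1 :=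
  map_one (Int.castRingHom ℝ).mapMatrix

theorem det_toReal (U : Matrix (Fin n) (Fin n) ℤ) : (toReal U).det = (U.det : ℝ) :=
  ((Int.castRingHom ℝ).map_det U).symm

theorem abs_det_toReal {U : Matrix (Fin n) (Fin n) ℤ} (hU : IsUnit U.det) :
    |(toReal U).det| = 1 := by
  rw [det_toReal]
  rcases Int.isUnit_iff.1 hU with h | h <;> simp [h]

theorem toReal_mulVec (U : Matrix (Fin n) (Fin n) ℤ) (v : Fin n → ℤ) :
    (fun i => ((U *ᵥ v) i : ℝ)) = toReal U *ᵥ fun i => (v i : ℝ) :=
  funext fun i => RingHom.map_mulVec (Int.castRingHom ℝ) U v i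

theorem diag_congr {K : Type*} [CommRing K] (P W : Matrix (Fin n) (Fin n) K) (j : Fin n) :
    (Wᵀ * P * W) j j = quad P fun i => W i j := by
  simp only [quad, Matrix.mul_apply, Matrix.transpose_apply, dotProduct, Matrix.mulVec, mul_sum,
    sum_mul]
  rw [sum_comm]
  exact sum_congr rfl fun i _ => sum_congr rfl fun k _ => mul_assoc _ _ _

theorem quad_smul {K : Type*} [CommRing K] (P : Matrix (Fin n) (Fin n) K) (c : K)
    (x : Fin n → K) : quad P (c • x) = c ^ 2 * quad P x := by
  simp only [quad, Matrix.mulVec_smul, smul_dotProduct, dotProduct_smul, smul_eq_mul]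
  ring

/-- **Reduction of forms without small values.** -/
theorem exists_bounded_diag (n : ℕ) : ∀ ε D : ℝ, 0 < ε → ∃ R : ℝ,
    ∀ P : Matrix (Fin n) (Fin n) ℝ, P.PosDef → P.det ≤ D →
      (∀ v : Fin n → ℤ, v ≠ 0 → ε ≤ quad P fun i => (v i : ℝ)) →
        ∃ U : Matrix (Fin n) (Fin n) ℤ, IsUnit U.det ∧
          ∀ j, ((toReal U)ᵀ * P * toReal U) j j ≤ R := by
  induction n with
  | zero => exact fun ε D _ => ⟨0, fun P _ _ _ => ⟨1, by simp, fun j => j.elim0⟩⟩
  | succ n ih =>
    intro ε D hε
    set C : ℝ := max 1 ((4 / 3 : ℝ) ^ (n * (n + 1)) * D ^ 2)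
    obtain ⟨K, hK⟩ := exists_nat_ge (2 * C / ε + 1)
    have hC1 : 1 ≤ C := le_max_left _ _
    have hK0 : 0 < K := by
      have h : (0 : ℝ) < K := by
        have : 0 ≤ 2 * C / ε := by positivity
        linarith
      exact_mod_cast h
    obtain ⟨R, hR⟩ := ih (ε / (2 * (K : ℝ) ^ 2)) (D / ε) (by positivity)
    refine ⟨C + max R 0 + C, fun P hP hdet hmin => ?_⟩
    obtain ⟨v, hv, hle⟩ := exists_short_vector n P hP
    obtain ⟨g, w, hg, hw, rfl⟩ := exists_primitive_smul hv
    have hw0 : w ≠ 0 := fun h => hv (by rw [h, smul_zero])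
    obtain ⟨m, hm⟩ : ∃ m, m = quad P fun i => (w i : ℝ) := ⟨_, rfl⟩
    have hmε : ε ≤ m := hm ▸ hmin w hw0
    have hm0 : 0 < m := hε.trans_le hmε
    have hgm : m ≤ quad P fun i => ((g • w) i : ℝ) := by
      rw [show (fun i => ((g • w) i : ℝ)) = (g : ℝ) • fun i => (w i : ℝ) by funext i; simp,
        quad_smul, ← hm]
      refine le_mul_of_one_le_left hm0.le ?_
      exact_mod_cast (show (1 : ℤ) ≤ g ^ 2 by nlinarith [sq_pos_of_ne_zero hg])
    have hmC : m ≤ C := by
      obtain ⟨q, hq⟩ : ∃ q, q = quad P fun i => ((g • w) i : ℝ) := ⟨_, rfl⟩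
      rw [← hq] at hle hgm
      refine hgm.trans ?_
      rcases le_total q 1 with h | h
      · exact h.trans (le_max_left _ _)
      · exact ((le_self_pow₀ h (by omega)).trans (hle.trans (mul_le_mul_of_nonneg_left
          (pow_le_pow_left₀ hP.det_pos.le hdet 2) (by positivity)))).trans (le_max_right _ _)
    obtain ⟨U, hU, hUcol⟩ := exists_unimodular_col hw
    have hWsq : (toReal U).det ^ 2 = 1 := by rw [← sq_abs, abs_det_toReal hU, one_pow]
    have hWu : IsUnit (toReal U).det :=
      isUnit_iff_ne_zero.2 fun h => by simp [h] at hWsq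
    obtain ⟨P', hP'⟩ : ∃ P', P' = (toReal U)ᵀ * P * toReal U := ⟨_, rfl⟩
    have hP'pos : P'.PosDef := by
      rw [hP', ← conjTranspose_eq_transpose_of_trivial]
      exact hP.conjTranspose_mul_mul_same (mulVec_injective_of_isUnit_det hWu)
    have hdet' : P'.det = P.det := by
      rw [hP', det_mul, det_mul, det_transpose, mul_right_comm, ← sq, hWsq, one_mul]
    have h00 : P' 0 0 = m := by
      rw [hP', diag_congr, hm]
      exact congrArg (quad P) (funext fun i => by simp [toReal, hUcol])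
    obtain ⟨l, hl⟩ : ∃ l : Fin n → ℝ, l = fun j => P' 0 j.succ := ⟨_, rfl⟩
    obtain ⟨R₀, hR₀⟩ : ∃ R₀, R₀ = P'.submatrix Fin.succ Fin.succ := ⟨_, rfl⟩
    have hbord : P' = bord m l R₀ := by
      rw [← h00, hl, hR₀]
      exact bord_eq (posDef_iff_quad.1 hP'pos).1
    obtain ⟨S, hS⟩ : ∃ S, S = R₀ - m⁻¹ • vecMulVec l l := ⟨_, rfl⟩
    have hsplit : ∀ t x, quad P' (Fin.cons t x) = m * (t + (l ⬝ᵥ x) / m) ^ 2 + quad S x := by
      intro t x
      have e : quad S x = quad R₀ x - (l ⬝ᵥ x) ^ 2 / m := by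
        simp only [hS, quad, Matrix.sub_mulVec, Matrix.smul_mulVec, vecMulVec_mulVec,
          dotProduct_sub, dotProduct_smul, op_smul_eq_smul, smul_eq_mul, dotProduct_comm x l]
        ring
      rw [hbord, quad_bord, e]
      field_simp
      ring
    have hSpos : S.PosDef := by
      refine posDef_iff_quad.2 ⟨?_, fun x hx => ?_⟩
      · ext i j
        simp only [hS, transpose_apply, Matrix.sub_apply, Matrix.smul_apply, vecMulVec_apply, hR₀,
          submatrix_apply, smul_eq_mul]
        rw [(posDef_iff_quad.1 hP'pos).1.apply, mul_comm (l i)]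
      · have h := (posDef_iff_quad.1 hP'pos).2 (Fin.cons (-(l ⬝ᵥ x) / m) x)
          fun h => hx (funext fun i => by simpa using congrFun h i.succ)
        rw [hsplit, show -(l ⬝ᵥ x) / m + (l ⬝ᵥ x) / m = 0 by ring] at h
        simpa using h
    have hdetS : P'.det = m * S.det := by
      have e := pow_mul_det_bord m l R₀
      rw [show m • R₀ - vecMulVec l l = m • S by
        rw [hS, smul_sub, smul_smul, mul_inv_cancel₀ hm0.ne', one_smul], det_smul,
        Fintype.card_fin, ← hbord] at e
      exact mul_left_cancel₀ (pow_ne_zero n hm0.ne') (by rw [e]; ring)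
    -- the values of the quotient form are not small
    have hlow : ∀ x : Fin n → ℤ, x ≠ 0 → ε / (2 * (K : ℝ) ^ 2) ≤ quad S fun i => (x i : ℝ) := by
      intro x hx
      obtain ⟨j, k, hk, hkK, hjk⟩ :=
        Real.exists_int_int_abs_mul_sub_le ((l ⬝ᵥ fun i => (x i : ℝ)) / m) hK0
      have hne : U *ᵥ Fin.cons (-j) (k • x) ≠ 0 := fun h => hx (funext fun i => by
        have h2 : Fin.cons (-j) (k • x) = (0 : Fin (n + 1) → ℤ) := mulVec_injective_of_isUnit
          ((isUnit_iff_isUnit_det U).2 hU) (by rw [h, Matrix.mulVec_zero])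
        simpa [hk.ne'] using congrFun h2 i.succ)
      have h := hmin _ hne
      have hcast : (fun i => ((Fin.cons (-j) (k • x) : Fin (n + 1) → ℤ) i : ℝ)) =
          Fin.cons (-(j : ℝ)) ((k : ℝ) • fun i => (x i : ℝ)) := by
        funext i
        refine Fin.cases ?_ (fun i => ?_) i <;> simp
      rw [toReal_mulVec, hcast, ← quad_congr, ← hP', hsplit, quad_smul, dotProduct_smul,
        smul_eq_mul, mul_div_assoc] at h
      set s := quad S fun i => (x i : ℝ)
      have hs : 0 ≤ s := quad_nonneg hSpos _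
      have hd : (-(j : ℝ) + k * ((l ⬝ᵥ fun i => (x i : ℝ)) / m)) ^ 2 ≤ 1 / (K : ℝ) ^ 2 := by
        rw [neg_add_eq_sub, ← sq_abs]
        refine (pow_le_pow_left₀ (abs_nonneg _) hjk 2).trans ?_
        rw [div_pow, one_pow]
        gcongr
        linarith
      have hmK : m * (1 / (K : ℝ) ^ 2) ≤ ε / 2 := by
        have hK' : (0 : ℝ) < K := Nat.cast_pos.2 hK0
        have h1 : 2 * C ≤ K * ε := by
          have := (le_add_of_nonneg_right zero_le_one : 2 * C / ε ≤ 2 * C / ε + 1).trans hK
          rwa [div_le_iff₀ hε] at this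
        have h2 : (K : ℝ) * ε ≤ (K : ℝ) ^ 2 * ε := by
          have : (1 : ℝ) ≤ K := Nat.one_le_cast.2 hK0
          nlinarith
        rw [mul_one_div, div_le_div_iff₀ (by positivity) two_pos]
        nlinarith
      have hk2 : (k : ℝ) ^ 2 * s ≤ (K : ℝ) ^ 2 * s := by
        gcongr
        exact_mod_cast hkK
      rw [div_le_iff₀ (by positivity)]
      nlinarith [mul_le_mul_of_nonneg_left hd hm0.le]
    obtain ⟨V, hV, hVb⟩ := hR S hSpos (by
      rw [le_div_iff₀ hε]
      refine le_trans ?_ (hdetS ▸ hdet'.trans_le hdet)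
      nlinarith [hSpos.det_pos]) hlow
    obtain ⟨N, hN⟩ : ∃ N : Matrix (Fin (n + 1)) (Fin (n + 1)) ℤ, N = Matrix.of
        (Fin.cons (Fin.cons 1 fun j => -round ((l ⬝ᵥ fun i => (V i j : ℝ)) / m))
          fun i => Fin.cons 0 (V i)) := ⟨_, rfl⟩
    refine ⟨U * N, ?_, fun j => ?_⟩
    · rw [det_mul, det_succ_of_col (A := N) fun i => by simp [hN]]
      have : N.submatrix Fin.succ Fin.succ = V := by ext; simp [hN]
      rw [this, show N 0 0 = 1 by simp [hN], one_mul]
      exact hU.mul hV
    rw [toReal_mul, transpose_mul, show (toReal N)ᵀ * (toReal U)ᵀ * P * (toReal U * toReal N) =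
      (toReal N)ᵀ * ((toReal U)ᵀ * P * toReal U) * toReal N by simp only [Matrix.mul_assoc],
      ← hP', diag_congr]
    have hR0 : 0 ≤ C + C := by linarith
    refine Fin.cases ?_ (fun j => ?_) j
    · rw [show (fun i => toReal N i 0) = Fin.cons (1 : ℝ) 0 by
        funext i; refine Fin.cases ?_ (fun i => ?_) i <;> simp [toReal, hN], hsplit]
      simp only [dotProduct_zero, zero_div, add_zero, one_pow, mul_one, quad, zero_dotProduct]
      linarith [le_max_right R 0]
    · rw [show (fun i => toReal N i j.succ) =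
          Fin.cons (-(round ((l ⬝ᵥ fun i => (V i j : ℝ)) / m) : ℝ)) fun i => (V i j : ℝ) by
        funext i; refine Fin.cases ?_ (fun i => ?_) i <;> simp [toReal, hN], hsplit]
      have h1 := hVb j
      rw [diag_congr] at h1
      have h2 := abs_le.1 (abs_sub_round ((l ⬝ᵥ fun i => (V i j : ℝ)) / m))
      have h3 : quad S (fun i => (V i j : ℝ)) ≤ max R 0 := h1.trans (le_max_left _ _)
      have h4 : (-(round ((l ⬝ᵥ fun i => (V i j : ℝ)) / m) : ℝ) +
          (l ⬝ᵥ fun i => (V i j : ℝ)) / m) ^ 2 ≤ 1 := by nlinarith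
      have h5 := mul_le_mul_of_nonneg_left h4 hm0.le
      linarith

end FA.OrthogonalUnits
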